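/-
S16 / package M5 (helper2): a level-one modular form of weight `12 i` whose `q`-expansion has
coefficients in a subring `A ⊆ ℂ` is `Δ^i · P(j)` with `P ∈ A[X]`, as an identity of Laurent series
over `A`; and its reduction along a ring homomorphism `A → κ`.
-/
import Fermat.Agent.S16lib.M4.RhoValue
import Fermat.Agent.S16lib.TX.Forms
import Fermat.Agent.S28lib.Series

set_option autoImplicit false

noncomputable section

namespace Fermat.Agent.S16lib.M5

open UpperHalfPlane ModularForm MatrixGroups CongruenceSubgroup SlashInvariantForm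
  ModularFormClass EisensteinSeries
open Fermat.Agent.ProgramR.LevelOne Fermat.Agent.ProgramR.QExp Fermat.Agent.S16lib.SwDBridge
open Fermat.Agent.S16lib.TX ModularCurve Fermat.Agent.S28lib

/-- Series-level version of `M4.exists_sub_mul_discriminant`. -/
theorem exists_sub_mul_DA (A : Subring ℂ) (α β : ℕ) {k : ℤ}
    (hwt : (α : ℤ) * 4 + (β : ℤ) * 6 = k) (f : ModularForm 𝒮ℒ k) (a : PowerSeries A)
    (ha : a.map A.subtype = qExpansion 1 f) :
    ∃ (h : ModularForm 𝒮ℒ (k - 12)) (hA : PowerSeries A),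
      hA.map A.subtype = qExpansion 1 h ∧
      a = PowerSeries.C (PowerSeries.coeff 0 a) * (QA A ^ α * RA A ^ β) + DA A * hA := by
  obtain ⟨h, hA, hhA, hz⟩ := M4.exists_sub_mul_discriminant A α β hwt f a ha
  refine ⟨h, hA, hhA, ?_⟩
  apply map_subtype_injective A
  have hE4 : (E₄ : ℍ → ℂ) ∈ holRing 1 := coe_mem_holRing_one_levelOne E₄
  have hE6 : (E₆ : ℍ → ℂ) ∈ holRing 1 := coe_mem_holRing_one_levelOne E₆
  have hD : (ModularForm.discriminant : ℍ → ℂ) ∈ holRing 1 := isHolPerBdd_discriminant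
  have hh : (h : ℍ → ℂ) ∈ holRing 1 := coe_mem_holRing_one_levelOne h
  have hmon : (E₄ : ℍ → ℂ) ^ α * (E₆ : ℍ → ℂ) ^ β ∈ holRing 1 :=
    (holRing 1).mul_mem ((holRing 1).pow_mem hE4 α) ((holRing 1).pow_mem hE6 β)
  have hfun : (f : ℍ → ℂ) = ((PowerSeries.coeff 0 a : A) : ℂ) •
      ((E₄ : ℍ → ℂ) ^ α * (E₆ : ℍ → ℂ) ^ β) + (ModularForm.discriminant : ℍ → ℂ) * (h : ℍ → ℂ) := by
    funext z
    simp only [Pi.add_apply, Pi.smul_apply, Pi.mul_apply, Pi.pow_apply, smul_eq_mul]
    exact hz z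
  rw [ha, hfun, qExpansion_add_of_mem one_pos (smul_mem_holRing _ hmon) ((holRing 1).mul_mem hD hh),
    qExpansion_smul_of_mem one_pos hmon, qExpansion_mul_of_mem one_pos hD hh,
    qExpansion_mul_of_mem one_pos ((holRing 1).pow_mem hE4 α) ((holRing 1).pow_mem hE6 β),
    qExpansion_pow_of_mem one_pos hE4, qExpansion_pow_of_mem one_pos hE6,
    qExpansion_E₄', qExpansion_E₆', qExpansion_discriminant', ← hhA]
  simp only [map_add, map_mul, map_pow, PowerSeries.map_C, QA, RA, DA, map_map_int,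
    PowerSeries.smul_eq_C_mul]
  rfl


theorem Qz_eq_eisenstein4 : Qz = eisenstein4 := by
  ext n
  rw [Qz, coeff_sigmaSeries, eisenstein4, PowerSeries.coeff_mk]
  split_ifs with h
  · rfl
  · rw [ArithmeticFunction.sigma_apply]
    push_cast
    rfl

/-- `Δ · j = E₄³` as Laurent series over any commutative ring. -/
theorem DeltaQ_mul_jqModC (R : Type*) [CommRing R] :
    DeltaQ R * jqModC R =
      HahnSeries.ofPowerSeries ℤ R ((eisenstein4 ^ 3).map (Int.castRingHom R)) := by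
  have h1 : dedekindEtaUnit * jNum = eisenstein4 ^ 3 := by
    rw [jNum, mul_comm (eisenstein4 ^ 3), ← mul_assoc, dedekindEtaUnit_mul_inv, one_mul]
  have h3 : (HahnSeries.single (1 : ℤ) (1 : R)) * HahnSeries.single (-1 : ℤ) (1 : R) = 1 := by
    rw [HahnSeries.single_mul_single]
    simp
  calc DeltaQ R * jqModC R
      = (HahnSeries.single (1 : ℤ) (1 : R) * HahnSeries.single (-1 : ℤ) (1 : R)) *
        (HahnSeries.ofPowerSeries ℤ R (dedekindEtaUnit.map (Int.castRingHom R)) *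
          HahnSeries.ofPowerSeries ℤ R (jNum.map (Int.castRingHom R))) := by
        rw [jqModC, DeltaQ]; ring
    _ = _ := by rw [h3, one_mul, ← map_mul, ← map_mul, h1]

theorem ofPowerSeries_DA (A : Subring ℂ) : HahnSeries.ofPowerSeries ℤ A (DA A) = DeltaQ A := by
  rw [DA, Dz, map_mul, map_mul, PowerSeries.map_X, HahnSeries.ofPowerSeries_X, DeltaQ]

theorem ofPowerSeries_QA_cube (A : Subring ℂ) :
    HahnSeries.ofPowerSeries ℤ A (QA A ^ 3) = DeltaQ A * jqModC A := by
  rw [DeltaQ_mul_jqModC, QA, Qz_eq_eisenstein4]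
  simp only [map_pow]

/-- A level-one form of weight `12 i` with `q`-expansion in `A⟦q⟧` is `Δ^i P(j)`, `P ∈ A[X]`. -/
theorem exists_jPoly (A : Subring ℂ) :
    ∀ (i : ℕ) (k : ℤ), k = 12 * (i : ℤ) → ∀ (f : ModularForm 𝒮ℒ k) (a : PowerSeries A),
      a.map A.subtype = qExpansion 1 f →
      ∃ P : Polynomial A, HahnSeries.ofPowerSeries ℤ A a =
        DeltaQ A ^ i * evalJ A (jqModC A) P := by
  intro i
  induction i with
  | zero =>
    intro k hk f a ha
    have hwt : ((0 : ℕ) : ℤ) * 4 + ((0 : ℕ) : ℤ) * 6 = k := by rw [hk]; simp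
    obtain ⟨h, hA, hhA, hz⟩ := exists_sub_mul_DA A 0 0 hwt f a ha
    have hh0 : h = 0 := eq_zero_of_weight (Or.inl (by omega)) h
    have hA0 : hA = 0 := by
      apply map_subtype_injective A
      rw [hhA, hh0, map_zero]
      exact qExpansion_zero 1
    refine ⟨Polynomial.C (PowerSeries.coeff 0 a), ?_⟩
    generalize PowerSeries.coeff 0 a = a₀ at hz ⊢
    rw [hz, hA0]
    simp [evalJ, algebraMap_laurent_eq_C]
  | succ j ih =>
    intro k hk f a ha
    have hwt : ((3 * (j + 1) : ℕ) : ℤ) * 4 + ((0 : ℕ) : ℤ) * 6 = k := by rw [hk]; push_cast; ring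
    obtain ⟨h, hA, hhA, hz⟩ := exists_sub_mul_DA A (3 * (j + 1)) 0 hwt f a ha
    have hk' : k - 12 = 12 * (j : ℤ) := by rw [hk]; push_cast; ring
    obtain ⟨P, hP⟩ := ih (k - 12) hk' h hA hhA
    refine ⟨Polynomial.C (PowerSeries.coeff 0 a) * Polynomial.X ^ (j + 1) + P, ?_⟩
    have hQ : HahnSeries.ofPowerSeries ℤ A (QA A ^ (3 * (j + 1))) =
        (DeltaQ A * jqModC A) ^ (j + 1) := by
      rw [pow_mul, map_pow, ofPowerSeries_QA_cube]
    generalize PowerSeries.coeff 0 a = a₀ at hz ⊢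
    rw [pow_zero, mul_one] at hz
    rw [hz, map_add, map_mul, map_mul, hQ, ofPowerSeries_DA, hP,
      HahnSeries.ofPowerSeries_C, map_add, map_mul, map_pow, evalJ_X]
    have hC : evalJ A (jqModC A) (Polynomial.C a₀) = HahnSeries.C a₀ := by
      simp [evalJ, algebraMap_laurent_eq_C]
    rw [hC]
    ring

end Fermat.Agent.S16lib.M5
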