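/-
S16 / MT5, analytic side (helper1).  The weight-12 form
`Y = (1/3) E₆ (c E₆ - G E₄)` on `Γ₀(p)` attached to `G ∈ M₂(Γ₀(p))` and a constant `c`, and its
`p + 1` conjugates: `conj Y x = (1/3) E₆ (c E₆ - (conj G x) E₄)`.
-/
import Fermat.Agent.S16lib.TX.ConjPoly

set_option autoImplicit false

noncomputable section

namespace Fermat.Agent.S16lib.M5.An

open scoped MatrixGroups ModularForm Manifold
open UpperHalfPlane CongruenceSubgroup ModularForm EisensteinSeries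
open Fermat.Agent.S16lib.TX Fermat.Agent.S16lib.Op

variable (p : ℕ)

lemma conj_mcast {a b : ℤ} (h : a = b) (F : ModularForm (Gamma0 p) a) (x : Option (Fin p)) :
    conj p (ModularForm.mcast h F) x = conj p F x := by
  subst h
  rfl

/-- `c E₆ - G E₄ ∈ M₆(Γ₀(p))`. -/
def innerForm (G : ModularForm (Gamma0 p) 2) (c : ℂ) : ModularForm (Gamma0 p) 6 :=
  c • levelOneRestrict p E₆ -
    ModularForm.mcast (by norm_num : (2 : ℤ) + 4 = 6) (G.mul (levelOneRestrict p E₄))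

/-- `Y = (1/3) E₆ (c E₆ - G E₄) ∈ M₁₂(Γ₀(p))`. -/
def Yform (G : ModularForm (Gamma0 p) 2) (c : ℂ) : ModularForm (Gamma0 p) 12 :=
  (1 / 3 : ℂ) • ModularForm.mcast (by norm_num : (6 : ℤ) + 6 = 12)
    ((levelOneRestrict p E₆).mul (innerForm p G c))

/-- The function `(1/3) E₆ (c E₆ - g E₄)`. -/
def Yfun (c : ℂ) (g : ℍ → ℂ) : ℍ → ℂ :=
  (1 / 3 : ℂ) • ((⇑E₆ : ℍ → ℂ) * (c • (⇑E₆ : ℍ → ℂ) - g * (⇑E₄ : ℍ → ℂ)))

theorem conj_Yform (G : ModularForm (Gamma0 p) 2) (c : ℂ) (x : Option (Fin p)) :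
    conj p (Yform p G c) x = Yfun c (conj p G x) := by
  rw [Yform, conj_smul, conj_mcast, conj_mul, conj_levelOneRestrict, innerForm, conj_sub,
    conj_smul, conj_levelOneRestrict, conj_mcast, conj_mul, conj_levelOneRestrict, Yfun]

end Fermat.Agent.S16lib.M5.An
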