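/-
S16 / package M5 (ℓ = 3, modulus 9, `p ≡ 2 mod 3`): the characteristic-3 algebra.

Over a field `κ` of characteristic `3`, with `S̄ = Σ σ(n) qⁿ`, `Δ̄ = q ∏ (1 - qⁿ)^24`, `j̄ = 1/Δ̄`
and the Euler derivation `θ = q d/dq`:
* `θ S̄ = S̄ - S̄³`, `θ Δ̄ = Δ̄`, `j̄ Δ̄ = 1`, `θ j̄ = -j̄`;
* `S̄ ∉ κ(j̄)` (`sigmaL_not_mem`);
* Frobenius descent: `z³ ∈ κ(j̄) → z ∈ κ(j̄)` for perfect `κ`;
* `no_poly`: no `Q ∈ κ[j][Y]` specialises to `(Y - s)(Y - s + b')^p`, `s = c S̄ j̄`, `b' = c β j̄`.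
-/
import Mathlib
import Fermat.Agent.S28lib.Series
import Fermat.Agent.S28lib.ThetaDeriv

set_option autoImplicit false

noncomputable section

namespace Fermat.Agent.S16lib.M5

open ModularCurve HahnSeries Polynomial Fermat.Agent.S28lib

section Arith
open ArithmeticFunction

/-- `σ(n) ≡ 0 mod 3` for `n ≡ 2 mod 3`. -/
theorem three_dvd_sigma_of_mod (n : ℕ) (hn : n % 3 = 2) : 3 ∣ ArithmeticFunction.sigma 1 n := by
  have h2 : 3 ∣ 2 * ArithmeticFunction.sigma 1 n := by
    have hsum : 2 * ArithmeticFunction.sigma 1 n = ∑ d ∈ n.divisors, (d + n / d) := by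
      rw [Finset.sum_add_distrib, Nat.sum_div_divisors n (fun d => d), two_mul, sigma_one_apply]
    rw [hsum]
    refine Finset.dvd_sum fun d hd => ?_
    have hdn : d ∣ n := Nat.dvd_of_mem_divisors hd
    obtain ⟨e, rfl⟩ := hdn
    have hd0 : 0 < d := Nat.pos_of_mem_divisors hd
    rw [Nat.mul_div_cancel_left _ hd0]
    -- d * e ≡ 2 mod 3 → d + e ≡ 0 mod 3
    have h3 : (d % 3) * (e % 3) % 3 = 2 := by rw [← Nat.mul_mod]; exact hn
    have hd3 : d % 3 < 3 := Nat.mod_lt _ (by norm_num)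
    have he3 : e % 3 < 3 := Nat.mod_lt _ (by norm_num)
    rw [Nat.dvd_iff_mod_eq_zero, Nat.add_mod]
    interval_cases (d % 3) <;> interval_cases (e % 3) <;> simp_all
  exact (Nat.Coprime.dvd_of_dvd_mul_left (by norm_num) h2)

/-- `σ(3m) ≡ σ(m) mod 3`. -/
theorem sigma_three_mul_mod (m : ℕ) : ArithmeticFunction.sigma 1 (3 * m) % 3 = ArithmeticFunction.sigma 1 m % 3 := by
  rcases Nat.eq_zero_or_pos m with rfl | hm
  · simp
  rw [sigma_one_apply, sigma_one_apply,
    ← Finset.sum_filter_add_sum_filter_not (3 * m).divisors (fun d => d ∣ m)]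
  have h1 : (3 * m).divisors.filter (fun d => d ∣ m) = m.divisors := by
    ext d
    simp only [Finset.mem_filter, Nat.mem_divisors]
    constructor
    · rintro ⟨-, h⟩; exact ⟨h, hm.ne'⟩
    · rintro ⟨h, -⟩; exact ⟨⟨h.mul_left 3, by positivity⟩, h⟩
  have h2 : 3 ∣ ∑ d ∈ (3 * m).divisors.filter (fun d => ¬ d ∣ m), d := by
    refine Finset.dvd_sum fun d hd => ?_
    simp only [Finset.mem_filter, Nat.mem_divisors] at hd
    by_contra h3
    have hcop : Nat.Coprime d 3 := ((Nat.Prime.coprime_iff_not_dvd Nat.prime_three).mpr h3).symm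
    exact hd.2 (hcop.dvd_of_dvd_mul_left hd.1.1)
  rw [h1]
  obtain ⟨t, ht⟩ := h2
  rw [ht]
  omega


end Arith

variable (κ : Type*) [Field κ]

instance charP_laurent [CharP κ 3] : CharP (LaurentSeries κ) 3 :=
  charP_of_injective_algebraMap (algebraMap κ (LaurentSeries κ)).injective 3

/-- The power series `Σ σ(n) qⁿ` over `κ`. -/
def sigmaPS : PowerSeries κ := PowerSeries.mk fun n => ((ArithmeticFunction.sigma 1 n : ℕ) : κ)

/-- The Laurent series `Σ σ(n) qⁿ` over `κ`. -/
def sigmaL : LaurentSeries κ := HahnSeries.ofPowerSeries ℤ κ (sigmaPS κ)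

theorem coeff_sigmaPS (n : ℕ) : (sigmaPS κ).coeff n = ((ArithmeticFunction.sigma 1 n : ℕ) : κ) := by
  simp [sigmaPS]

theorem sigmaL_coeff_one : (sigmaL κ).coeff 1 = 1 := by
  have := HahnSeries.ofPowerSeries_apply_coeff (Γ := ℤ) (sigmaPS κ) 1
  simp only [Nat.cast_one] at this
  rw [sigmaL, this, coeff_sigmaPS]
  simp

theorem sigmaL_ne_zero : sigmaL κ ≠ 0 := fun h => by
  have := sigmaL_coeff_one κ
  rw [h] at this
  simp at this

theorem coeff_sigmaPS_pow_three [CharP κ 3] (n : ℕ) :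
    ((sigmaPS κ) ^ 3).coeff n = if 3 ∣ n then ((ArithmeticFunction.sigma 1 (n / 3) : ℕ) : κ) else 0 := by
  have : Fact (Nat.Prime 3) := ⟨Nat.prime_three⟩
  have h := MvPowerSeries.map_frobenius_expand (σ := Unit) (R := κ) 3 (by norm_num)
    (f := sigmaPS κ)
  have h' : ((sigmaPS κ).expand 3 (by norm_num)).map (frobenius κ 3) = sigmaPS κ ^ 3 := h
  rw [← h', PowerSeries.coeff_map, PowerSeries.coeff_expand]
  split_ifs with h3
  · rw [coeff_sigmaPS, map_natCast]
  · simp


theorem natCast_sigma_of_mod [CharP κ 3] (n : ℕ) (hn : n % 3 = 2) :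
    ((ArithmeticFunction.sigma 1 n : ℕ) : κ) = 0 :=
  (CharP.cast_eq_zero_iff κ 3 _).mpr (three_dvd_sigma_of_mod n hn)

theorem natCast_sigma_three_mul [CharP κ 3] (m : ℕ) :
    ((ArithmeticFunction.sigma 1 (3 * m) : ℕ) : κ) = ((ArithmeticFunction.sigma 1 m : ℕ) : κ) :=
  (CharP.natCast_eq_natCast κ 3).mpr (sigma_three_mul_mod m)

/-- `θS̄ = S̄ - S̄³` in characteristic `3`. -/
theorem theta_sigmaL [CharP κ 3] : theta κ (sigmaL κ) = sigmaL κ - sigmaL κ ^ 3 := by
  have hpow : sigmaL κ ^ 3 = HahnSeries.ofPowerSeries ℤ κ (sigmaPS κ ^ 3) := by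
    rw [sigmaL, map_pow]
  ext n
  rw [theta_coeff, HahnSeries.coeff_sub, hpow, sigmaL]
  rcases lt_or_ge n 0 with hn | hn
  · rw [ofPowerSeries_coeff_of_neg _ hn, ofPowerSeries_coeff_of_neg _ hn]
    simp
  · lift n to ℕ using hn
    rw [HahnSeries.ofPowerSeries_apply_coeff, HahnSeries.ofPowerSeries_apply_coeff,
      coeff_sigmaPS, coeff_sigmaPS_pow_three, Int.cast_natCast]
    have h3 : ((3 : ℕ) : κ) = 0 := CharP.cast_eq_zero κ 3
    obtain ⟨m, r, hr, rfl⟩ : ∃ m r, r < 3 ∧ n = 3 * m + r :=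
      ⟨n / 3, n % 3, Nat.mod_lt _ (by norm_num), (Nat.div_add_mod n 3).symm⟩
    interval_cases r
    · rw [if_pos ⟨m, by ring⟩, add_zero, Nat.mul_div_cancel_left _ (by norm_num : 0 < 3),
        natCast_sigma_three_mul, Nat.cast_mul, h3]
      ring
    · rw [if_neg (by omega), Nat.cast_add, Nat.cast_mul, h3]
      simp
    · rw [if_neg (by omega), natCast_sigma_of_mod κ (3 * m + 2) (by omega)]
      simp

theorem theta_pow_three [CharP κ 3] (f : LaurentSeries κ) : theta κ (f ^ 3) = 0 := by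
  rw [Derivation.leibniz_pow]
  have h3 : (3 : ℕ) • (f ^ (3 - 1) • theta κ f) = ((3 : ℕ) : LaurentSeries κ) *
      (f ^ (3 - 1) • theta κ f) := by rw [nsmul_eq_mul]
  rw [h3, CharP.cast_eq_zero (LaurentSeries κ) 3, zero_mul]

/-- `θΔ̄ = Δ̄` in characteristic `3`. -/
theorem theta_DeltaQ [CharP κ 3] : theta κ (DeltaQ κ) = DeltaQ κ := by
  have h24 : dedekindEtaUnit = (etaProd ^ 8) ^ 3 := by rw [dedekindEtaUnit, ← pow_mul]
  have hU : HahnSeries.ofPowerSeries ℤ κ (dedekindEtaUnit.map (Int.castRingHom κ)) =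
      (HahnSeries.ofPowerSeries ℤ κ ((etaProd ^ 8).map (Int.castRingHom κ))) ^ 3 := by
    rw [h24, map_pow, map_pow]
  rw [DeltaQ, hU, Derivation.leibniz, theta_pow_three, theta_single]
  simp [mul_comm]

theorem map_eisenstein4 [CharP κ 3] : eisenstein4.map (Int.castRingHom κ) = 1 := by
  ext n
  rw [PowerSeries.coeff_map, eisenstein4, PowerSeries.coeff_mk, PowerSeries.coeff_one]
  split_ifs with h
  · simp
  · have h240 : ((240 : ℤ) : κ) = 0 := by
      have : ((240 : ℕ) : κ) = 0 := (CharP.cast_eq_zero_iff κ 3 240).mpr ⟨80, by norm_num⟩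
      exact_mod_cast this
    rw [eq_intCast, Int.cast_mul, h240, zero_mul]

/-- `j̄ · Δ̄ = 1` in characteristic `3`. -/
theorem jqModC_mul_DeltaQ [CharP κ 3] : jqModC κ * DeltaQ κ = 1 := by
  have h1 : jNum * dedekindEtaUnit = eisenstein4 ^ 3 := by
    rw [jNum, mul_assoc, mul_comm dedekindEtaUnitInv, dedekindEtaUnit_mul_inv, mul_one]
  have h2 : HahnSeries.ofPowerSeries ℤ κ (jNum.map (Int.castRingHom κ)) *
      HahnSeries.ofPowerSeries ℤ κ (dedekindEtaUnit.map (Int.castRingHom κ)) = 1 := by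
    rw [← map_mul, ← map_mul, h1, map_pow, map_eisenstein4, one_pow, map_one]
  have h3 : (HahnSeries.single (-1 : ℤ) (1 : κ)) * HahnSeries.single (1 : ℤ) (1 : κ) = 1 := by
    rw [HahnSeries.single_mul_single]
    simp
  calc jqModC κ * DeltaQ κ
      = (HahnSeries.single (-1 : ℤ) (1 : κ) * HahnSeries.single (1 : ℤ) (1 : κ)) *
        (HahnSeries.ofPowerSeries ℤ κ (jNum.map (Int.castRingHom κ)) *
          HahnSeries.ofPowerSeries ℤ κ (dedekindEtaUnit.map (Int.castRingHom κ))) := by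
        rw [jqModC, DeltaQ]; ring
    _ = 1 := by rw [h2, h3, mul_one]

/-- `θ j̄ = - j̄` in characteristic `3`. -/
theorem theta_jqModC [CharP κ 3] : theta κ (jqModC κ) = - jqModC κ := by
  have h := congrArg (theta κ) (jqModC_mul_DeltaQ κ)
  rw [Derivation.leibniz, theta_DeltaQ, Derivation.map_one_eq_zero, smul_eq_mul, smul_eq_mul,
    jqModC_mul_DeltaQ] at h
  have hD : DeltaQ κ ≠ 0 := DeltaQ_ne_zero κ
  have h' : DeltaQ κ * (theta κ (jqModC κ) + jqModC κ) = 0 := by
    rw [mul_add, mul_comm (DeltaQ κ) (jqModC κ), jqModC_mul_DeltaQ, add_comm]; exact h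
  have := (mul_eq_zero.mp h').resolve_left hD
  exact eq_neg_of_add_eq_zero_left this


/-! ### `S̄` is not a rational function of `j̄` -/

/-- The field `κ(j̄)` inside `κ((q))`. -/
def FJ : IntermediateField κ (LaurentSeries κ) := IntermediateField.adjoin κ {jqModC κ}

theorem jqModC_mem_FJ : jqModC κ ∈ FJ κ :=
  IntermediateField.subset_adjoin _ _ (Set.mem_singleton _)

theorem aeval_mem_FJ (f : κ[X]) : aeval (jqModC κ) f ∈ FJ κ := by
  rw [aeval_eq_sum_range]
  refine sum_mem fun i _ => ?_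
  rw [Algebra.smul_def]
  exact mul_mem ((FJ κ).algebraMap_mem _) (pow_mem (jqModC_mem_FJ κ) _)

theorem aeval_jqModC_injective : Function.Injective (aeval (R := κ) (jqModC κ)) :=
  transcendental_iff_injective.mp (transcendental_jqModC κ)

/-- every element of `κ(j̄)` is a quotient of coprime polynomials in `j̄`. -/
theorem exists_coprime_repr {w : LaurentSeries κ} (hw : w ∈ FJ κ) :
    ∃ a b : κ[X], IsCoprime a b ∧ b ≠ 0 ∧ aeval (jqModC κ) b * w = aeval (jqModC κ) a := by
  obtain ⟨r, s, hrs⟩ := (IntermediateField.mem_adjoin_simple_iff κ _).mp hw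
  by_cases hs : s = 0
  · refine ⟨0, 1, isCoprime_zero_left.mpr isUnit_one, one_ne_zero, ?_⟩
    rw [hs, map_zero, div_zero] at hrs
    rw [hrs, mul_zero, map_zero]
  have hs' : aeval (jqModC κ) s ≠ 0 := fun h0 => hs (aeval_jqModC_injective κ (by rw [h0, map_zero]))
  obtain ⟨g, a, b, hg, ha, hb, hcop⟩ :
      ∃ g a b : κ[X], g ≠ 0 ∧ r = g * a ∧ s = g * b ∧ IsCoprime a b := by
    classical
    let _ := EuclideanDomain.gcdMonoid κ[X]
    have hg : gcd r s ≠ 0 := gcd_ne_zero_of_right hs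
    obtain ⟨a, ha⟩ := gcd_dvd_left r s
    obtain ⟨b, hb⟩ := gcd_dvd_right r s
    refine ⟨gcd r s, a, b, hg, ha, hb, ?_⟩
    have hcop := isCoprime_div_gcd_div_gcd (p := r) hs
    generalize gcd r s = g at *
    have ha' : r / g = a := by rw [ha, mul_comm, mul_div_cancel_right₀ _ hg]
    have hb' : s / g = b := by rw [hb, mul_comm, mul_div_cancel_right₀ _ hg]
    rwa [ha', hb'] at hcop
  have hb0 : b ≠ 0 := fun h0 => hs (by rw [hb, h0, mul_zero])
  refine ⟨a, b, hcop, hb0, ?_⟩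
  have hg' : aeval (jqModC κ) g ≠ 0 := fun h0 =>
    hg (aeval_jqModC_injective κ (by rw [h0, map_zero]))
  have h1 : aeval (jqModC κ) s * w = aeval (jqModC κ) r := by
    rw [hrs, mul_div_cancel₀ _ hs']
  rw [ha, hb, map_mul, map_mul] at h1
  exact mul_left_cancel₀ hg' (by linear_combination h1)

theorem mem_FJ_of_repr {w : LaurentSeries κ} (a b : κ[X]) (hb : b ≠ 0)
    (h : aeval (jqModC κ) b * w = aeval (jqModC κ) a) : w ∈ FJ κ := by
  have hb' : aeval (jqModC κ) b ≠ 0 := fun h0 => hb (aeval_jqModC_injective κ (by rw [h0, map_zero]))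
  have : w = aeval (jqModC κ) a / aeval (jqModC κ) b := by
    rw [← h, mul_div_cancel_left₀ _ hb']
  rw [this]
  exact div_mem (aeval_mem_FJ κ a) (aeval_mem_FJ κ b)

theorem theta_aeval [CharP κ 3] (f : κ[X]) :
    theta κ (aeval (jqModC κ) f) = - (aeval (jqModC κ) (derivative f) * jqModC κ) := by
  rw [Derivation.map_aeval, theta_jqModC, smul_eq_mul, mul_neg]

theorem sigmaL_core [CharP κ 3] (a b : κ[X]) (hab : IsCoprime a b)
    (h : aeval (jqModC κ) b * sigmaL κ = aeval (jqModC κ) a) : False := by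
  set x := jqModC κ with hx
  set S := sigmaL κ with hS
  -- differentiate
  have star : aeval x b * (S - S ^ 3) - S * aeval x (derivative b) * x =
      - (aeval x (derivative a) * x) := by
    have h1 := congrArg (theta κ) h
    rw [Derivation.leibniz, theta_aeval, theta_aeval, theta_sigmaL, smul_eq_mul, smul_eq_mul] at h1
    rw [← h1]; ring
  have key : aeval x (b ^ 2 * a - a ^ 3 - a * b * derivative b * X + b ^ 2 * derivative a * X)
      = 0 := by
    simp only [map_sub, map_add, map_mul, map_pow, aeval_X]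
    linear_combination (aeval x b) ^ 2 * star +
      (- (aeval x b) ^ 2 + (aeval x b) ^ 2 * S ^ 2 + aeval x b * S * aeval x a + (aeval x a) ^ 2
        + aeval x b * aeval x (derivative b) * x) * h
  have hpoly : b ^ 2 * a - a ^ 3 - a * b * derivative b * X + b ^ 2 * derivative a * X = 0 :=
    aeval_jqModC_injective κ (by rw [key, map_zero])
  -- `b` is a unit
  have hbdvd : b ∣ a ^ 3 :=
    ⟨b * a - a * derivative b * X + b * derivative a * X, by linear_combination - hpoly⟩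
  have hbu : IsUnit b := (hab.pow_left (m := 3)).isUnit_of_dvd' hbdvd dvd_rfl
  obtain ⟨β, hβu, rfl⟩ := Polynomial.isUnit_iff.mp hbu
  have hβ : β ≠ 0 := hβu.ne_zero
  rw [derivative_C, mul_zero, zero_mul, sub_zero] at hpoly
  -- `a` is a constant
  have hdeg : a.natDegree = 0 := by
    by_contra hn
    have hn1 : 1 ≤ a.natDegree := Nat.one_le_iff_ne_zero.mpr hn
    have e1 : a ^ 3 = C (β ^ 2) * (a + derivative a * X) := by
      rw [C_pow]; linear_combination - hpoly
    have d1 : (a ^ 3).natDegree = 3 * a.natDegree := natDegree_pow a 3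
    have d2 : (C (β ^ 2) * (a + derivative a * X)).natDegree ≤ a.natDegree := by
      refine (natDegree_C_mul_le _ _).trans ((natDegree_add_le _ _).trans (max_le le_rfl ?_))
      refine (natDegree_mul_le).trans ?_
      rw [natDegree_X]
      have := natDegree_derivative_le a
      omega
    rw [e1] at d1
    omega
  obtain ⟨α, rfl⟩ : ∃ α, a = Polynomial.C α := ⟨_, eq_C_of_natDegree_eq_zero hdeg⟩
  rw [aeval_C, aeval_C] at h
  have h1 := congrArg (fun f => HahnSeries.coeff f 1) h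
  simp only [coeff_algebraMap_mul, hS, sigmaL_coeff_one, mul_one] at h1
  rw [algebraMap_laurentSeries_eq_single, HahnSeries.coeff_single_of_ne (by norm_num)] at h1
  exact hβ h1

theorem sigmaL_not_mem [CharP κ 3] : sigmaL κ ∉ FJ κ := by
  intro hmem
  obtain ⟨a, b, hab, -, h⟩ := exists_coprime_repr κ hmem
  exact sigmaL_core κ a b hab h

/-! ### Frobenius descent in `κ(j̄)` -/

theorem derivative_eq_zero_of_dvd (a : κ[X]) (h : a ∣ derivative a) : derivative a = 0 := by
  by_cases hn : a.natDegree = 0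
  · rw [eq_C_of_natDegree_eq_zero hn, derivative_C]
  · exact eq_zero_of_dvd_of_natDegree_lt h (natDegree_derivative_lt hn)

theorem exists_cube_of_derivative_eq_zero [CharP κ 3] [PerfectRing κ 3] (f : κ[X])
    (hf : derivative f = 0) : ∃ g : κ[X], f = g ^ 3 := by
  have : Fact (Nat.Prime 3) := ⟨Nat.prime_three⟩
  refine ⟨(contract 3 f).map ((frobeniusEquiv κ 3).symm : κ →+* κ), ?_⟩
  rw [← map_frobenius_expand (p := 3), Polynomial.map_expand, Polynomial.map_map]
  have hcomp : (frobenius κ 3).comp ((frobeniusEquiv κ 3).symm : κ →+* κ) = RingHom.id κ := by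
    ext x
    simp
  rw [hcomp, Polynomial.map_id, expand_contract 3 hf (by norm_num)]

theorem mem_FJ_of_cube_mem [CharP κ 3] [PerfectRing κ 3] (z : LaurentSeries κ)
    (hz : z ^ 3 ∈ FJ κ) : z ∈ FJ κ := by
  have : Fact (Nat.Prime 3) := ⟨Nat.prime_three⟩
  obtain ⟨a, b, hab, hb, h⟩ := exists_coprime_repr κ hz
  set x := jqModC κ with hx
  have hx0 : x ≠ 0 := jqModC_ne_zero κ
  have h1 := congrArg (theta κ) h
  rw [Derivation.leibniz, theta_pow_three, theta_aeval, theta_aeval, smul_zero, zero_add,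
    smul_eq_mul] at h1
  have h2 : z ^ 3 * aeval x (derivative b) = aeval x (derivative a) := by
    apply mul_right_cancel₀ hx0
    linear_combination - h1
  have h3 : aeval x (a * derivative b - b * derivative a) = 0 := by
    simp only [map_sub, map_mul]
    linear_combination aeval x b * h2 - aeval x (derivative b) * h
  have hpoly : a * derivative b - b * derivative a = 0 :=
    aeval_jqModC_injective κ (by rw [h3, map_zero])
  have ha' : derivative a = 0 :=
    derivative_eq_zero_of_dvd κ a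
      (hab.dvd_of_dvd_mul_left ⟨derivative b, by linear_combination - hpoly⟩)
  have hb' : derivative b = 0 :=
    derivative_eq_zero_of_dvd κ b
      (hab.symm.dvd_of_dvd_mul_left ⟨derivative a, by linear_combination hpoly⟩)
  obtain ⟨a₁, rfl⟩ := exists_cube_of_derivative_eq_zero κ a ha'
  obtain ⟨b₁, rfl⟩ := exists_cube_of_derivative_eq_zero κ b hb'
  have hb1 : b₁ ≠ 0 := fun h0 => hb (by rw [h0]; ring)
  refine mem_FJ_of_repr κ a₁ b₁ hb1 ?_
  apply frobenius_inj (LaurentSeries κ) 3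
  rw [frobenius_def, frobenius_def, mul_pow, ← map_pow, ← map_pow]
  exact h

theorem mem_FJ_of_pow_mem [CharP κ 3] [PerfectRing κ 3] (n : ℕ) (z : LaurentSeries κ)
    (hz : z ^ 3 ^ n ∈ FJ κ) : z ∈ FJ κ := by
  induction n with
  | zero => simpa using hz
  | succ n ih =>
    apply ih
    apply mem_FJ_of_cube_mem
    rw [← pow_mul, ← pow_succ]
    exact hz


/-! ### The generic coefficient comparison -/

section Generic

variable {K : Type*} [Field K] [CharP K 3] {T : Type*} [SetLike T K] [SubfieldClass T K] (F : T)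

theorem natCast_choose_two_eq_zero (p : ℕ) (hp : p % 3 = 2) : (((p + 1).choose 2 : ℕ) : K) = 0 := by
  rw [CharP.cast_eq_zero_iff K 3]
  have h1 : (p + 1) * p.choose 1 = (p + 1).choose 2 * 2 := Nat.add_one_mul_choose_eq p 1
  rw [Nat.choose_one_right] at h1
  have h3 : 3 ∣ (p + 1).choose 2 * 2 := by
    rw [← h1]
    exact Dvd.dvd.mul_right (by omega) _
  exact Nat.Coprime.dvd_of_dvd_mul_right (by norm_num) h3

theorem natCast_eq_neg_one (p : ℕ) (hp : p % 3 = 2) : ((p : ℕ) : K) = -1 := by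
  have h3 : ((3 : ℕ) : K) = 0 := CharP.cast_eq_zero K 3
  obtain ⟨j, rfl⟩ : ∃ j, p = 3 * j + 2 := ⟨p / 3, by omega⟩
  push_cast at h3 ⊢
  linear_combination ((j : K) + 1) * h3

/-- Case `b' ≠ 0`: the coefficient of `Y^(p-1)` of `(Y - s)(Y - s + b')^p` is `b'(b' - s)`. -/
theorem mem_of_coeff_mem_caseA (p : ℕ) (hp : p % 3 = 2) (s b' : K) (hb' : b' ∈ F)
    (hb0 : b' ≠ 0)
    (hP : ∀ k, ((X - Polynomial.C s) * (X - Polynomial.C (s - b')) ^ p : K[X]).coeff k ∈ F) : s ∈ F := by
  have hp1 : 1 ≤ p := by omega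
  set d := b' - s with hd
  have e1 : ((X - Polynomial.C s) * (X - Polynomial.C (s - b')) ^ p : K[X]) =
      (X + Polynomial.C d) ^ (p + 1) - Polynomial.C b' * (X + Polynomial.C d) ^ p := by
    rw [hd, pow_succ]
    simp only [Polynomial.C_sub]
    ring
  have h := hP (p - 1)
  rw [e1, Polynomial.coeff_sub, coeff_C_mul, coeff_X_add_C_pow, coeff_X_add_C_pow] at h
  have c1 : (p + 1).choose (p - 1) = (p + 1).choose 2 := by
    rw [← Nat.choose_symm (by omega : 2 ≤ p + 1)]
    congr 1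
  have c2 : p.choose (p - 1) = p := by
    rw [Nat.choose_symm hp1, Nat.choose_one_right]
  have e2 : p + 1 - (p - 1) = 2 := by omega
  have e3 : p - (p - 1) = 1 := by omega
  rw [c1, c2, e2, e3, natCast_choose_two_eq_zero p hp, natCast_eq_neg_one p hp] at h
  have h' : b' * d ∈ F := by
    have : d ^ 2 * 0 - b' * (d ^ 1 * -1) = b' * d := by ring
    rwa [this] at h
  have hdm : d ∈ F := by
    have : d = (b' * d) / b' := by rw [mul_div_cancel_left₀ _ hb0]
    rw [this]
    exact div_mem h' hb'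
  have : s = b' - d := by rw [hd]; ring
  rw [this]
  exact sub_mem hb' hdm

/-- Case `b' = 0`: some `3`-power of `s` is in `F`. -/
theorem exists_pow_mem_caseB (p : ℕ) (hp : p % 3 = 2) (s : K)
    (hP : ∀ k, ((X - Polynomial.C s) ^ (p + 1) : K[X]).coeff k ∈ F) : ∃ n : ℕ, s ^ 3 ^ n ∈ F := by
  have : Fact (Nat.Prime 3) := ⟨Nat.prime_three⟩
  obtain ⟨n, m, hm, hpm⟩ := Nat.exists_eq_pow_mul_and_not_dvd (n := p + 1) (by omega) 3 (by norm_num)
  refine ⟨n, ?_⟩
  have hm1 : 1 ≤ m := by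
    rcases Nat.eq_zero_or_pos m with rfl | h
    · exact absurd (dvd_zero 3) hm
    · exact h
  set t := s ^ 3 ^ n with ht
  have e1 : ((X - Polynomial.C s) ^ (p + 1) : K[X]) = expand K (3 ^ n) ((X + Polynomial.C (-t)) ^ m) := by
    rw [hpm, pow_mul, sub_pow_char_pow, map_pow, map_add, expand_X, expand_C, ht, Polynomial.C_neg, Polynomial.C_pow]
    ring
  have h := hP (3 ^ n * (m - 1))
  rw [e1, coeff_expand_mul' (by positivity), coeff_X_add_C_pow] at h
  have c2 : m.choose (m - 1) = m := by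
    rw [Nat.choose_symm hm1, Nat.choose_one_right]
  have e3 : m - (m - 1) = 1 := by omega
  rw [c2, e3, pow_one] at h
  have hm0 : ((m : ℕ) : K) ≠ 0 := by
    rw [Ne, CharP.cast_eq_zero_iff K 3]
    exact hm
  have : t = - ((-t * (m : K)) / (m : K)) := by
    rw [mul_div_cancel_right₀ _ hm0]; ring
  rw [this]
  exact neg_mem (div_mem h (natCast_mem F m))

end Generic

/-! ### The main statement -/

/-- The `∞`-conjugate reduction `s = c · S̄ · j̄`. -/
def sRed (c : κ) : LaurentSeries κ := algebraMap κ (LaurentSeries κ) c * sigmaL κ * jqModC κ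

/-- The shift `b' = c · β · j̄`. -/
def bRed (c β : κ) : LaurentSeries κ := algebraMap κ (LaurentSeries κ) (c * β) * jqModC κ

theorem bRed_mem (c β : κ) : bRed κ c β ∈ FJ κ :=
  mul_mem ((FJ κ).algebraMap_mem _) (jqModC_mem_FJ κ)

theorem sRed_not_mem [CharP κ 3] (c : κ) (hc : c ≠ 0) : sRed κ c ∉ FJ κ := by
  intro h
  apply sigmaL_not_mem κ
  have hx0 : jqModC κ ≠ 0 := jqModC_ne_zero κ
  have hc0 : algebraMap κ (LaurentSeries κ) c ≠ 0 := by
    rw [Ne, map_eq_zero]; exact hc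
  have : sigmaL κ = sRed κ c / (algebraMap κ (LaurentSeries κ) c * jqModC κ) := by
    rw [sRed, eq_div_iff (mul_ne_zero hc0 hx0)]; ring
  rw [this]
  exact div_mem h (mul_mem ((FJ κ).algebraMap_mem _) (jqModC_mem_FJ κ))

/-- Main algebraic statement over a perfect field of characteristic `3`. -/
theorem no_poly_of_perfect [CharP κ 3] [PerfectRing κ 3] (p : ℕ) (hp : p % 3 = 2) (c β : κ)
    (hc : c ≠ 0) (Q : Polynomial (Polynomial κ))
    (hQ : Q.map (evalJ κ (jqModC κ)) =
      (X - Polynomial.C (sRed κ c)) * (X - Polynomial.C (sRed κ c - bRed κ c β)) ^ p) : False := by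
  have hcoeff : ∀ k, ((X - Polynomial.C (sRed κ c)) * (X - Polynomial.C (sRed κ c - bRed κ c β)) ^ p :
      (LaurentSeries κ)[X]).coeff k ∈ FJ κ := by
    intro k
    rw [← hQ, coeff_map]
    exact aeval_mem_FJ κ _
  apply sRed_not_mem κ c hc
  by_cases hβ : β = 0
  · have hb0 : bRed κ c β = 0 := by rw [bRed, hβ, mul_zero, map_zero, zero_mul]
    rw [hb0, sub_zero, ← pow_succ'] at hcoeff
    obtain ⟨n, hn⟩ := exists_pow_mem_caseB (FJ κ) p hp (sRed κ c) hcoeff
    exact mem_FJ_of_pow_mem κ n _ hn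
  · have hb0 : bRed κ c β ≠ 0 := by
      rw [bRed]
      refine mul_ne_zero ?_ (jqModC_ne_zero κ)
      rw [Ne, map_eq_zero]
      exact mul_ne_zero hc hβ
    exact mem_of_coeff_mem_caseA (FJ κ) p hp (sRed κ c) (bRed κ c β) (bRed_mem κ c β) hb0 hcoeff

/-! ### Base change to a perfect field -/

theorem coeffMap_sigmaL {κ' : Type*} [Field κ'] (φ : κ →+* κ') :
    coeffMap φ (sigmaL κ) = sigmaL κ' := by
  ext n
  rw [coeffMap_coeff, sigmaL, sigmaL]
  rcases lt_or_ge n 0 with hn | hn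
  · rw [ofPowerSeries_coeff_of_neg _ hn, ofPowerSeries_coeff_of_neg _ hn, map_zero]
  · lift n to ℕ using hn
    rw [HahnSeries.ofPowerSeries_apply_coeff, HahnSeries.ofPowerSeries_apply_coeff,
      coeff_sigmaPS, coeff_sigmaPS, map_natCast]

theorem coeffMap_sRed {κ' : Type*} [Field κ'] (φ : κ →+* κ') (c : κ) :
    coeffMap φ (sRed κ c) = sRed κ' (φ c) := by
  rw [sRed, sRed, map_mul, map_mul, coeffMap_algebraMap', coeffMap_sigmaL, coeffMap_jqModC]

theorem coeffMap_bRed {κ' : Type*} [Field κ'] (φ : κ →+* κ') (c β : κ) :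
    coeffMap φ (bRed κ c β) = bRed κ' (φ c) (φ β) := by
  rw [bRed, bRed, map_mul, coeffMap_algebraMap', coeffMap_jqModC, map_mul]

/-- **M5, algebraic core**: over any field `κ` of characteristic `3`, for `p ≡ 2 mod 3` and
`c ≠ 0`, no polynomial `Q ∈ κ[j][Y]` specialises (under `j ↦ j̄(q)`) to
`(Y - s)(Y - s + b')^p` with `s = c S̄ j̄`, `b' = c β j̄`, `S̄ = Σ σ(n) qⁿ`. -/
theorem no_poly [CharP κ 3] (p : ℕ) (hp : p % 3 = 2) (c β : κ)
    (hc : c ≠ 0) (Q : Polynomial (Polynomial κ))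
    (hQ : Q.map (evalJ κ (jqModC κ)) =
      (X - Polynomial.C (sRed κ c)) * (X - Polynomial.C (sRed κ c - bRed κ c β)) ^ p) : False := by
  let κ' := AlgebraicClosure κ
  let φ : κ →+* κ' := algebraMap κ κ'
  have : CharP κ' 3 := charP_of_injective_algebraMap φ.injective 3
  have hcomm : (coeffMap φ).comp (evalJ κ (jqModC κ)) =
      (evalJ κ' (jqModC κ')).comp (Polynomial.mapRingHom φ) := by
    ext a
    · simp only [RingHom.coe_comp, Function.comp_apply, coe_mapRingHom]
      rw [coeffMap_evalJ, coeffMap_jqModC]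
    · simp only [RingHom.coe_comp, Function.comp_apply, coe_mapRingHom]
      rw [coeffMap_evalJ, coeffMap_jqModC]
  refine no_poly_of_perfect κ' p hp (φ c) (φ β) ((map_ne_zero φ).mpr hc)
    (Q.map (Polynomial.mapRingHom φ)) ?_
  rw [Polynomial.map_map, ← hcomm, ← Polynomial.map_map, hQ]
  simp only [Polynomial.map_mul, Polynomial.map_pow, Polynomial.map_sub, Polynomial.map_X,
    Polynomial.map_C, map_sub, coeffMap_sRed, coeffMap_bRed]

end Fermat.Agent.S16lib.M5
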