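/-
S16 / package M5 (helper2): reduction of `TX.esymmSeries` when every reduced conjugate series is a
series in `q = t^p` (i.e. of the form `expand p u`).
-/
import Fermat.Agent.S16lib.TX.Integral

set_option autoImplicit false

noncomputable section

namespace Fermat.Agent.S16lib.M5

open Fermat.Agent.S16lib.TX

variable (p : ℕ) [NeZero p]

/-- `esymmSeries` of expanded series is `e_i` of the original series. -/
theorem esymmSeries_expand {B : Type*} [CommRing B] (u : Option (Fin p) → PowerSeries B) (i : ℕ) :
    esymmSeries p (fun x => PowerSeries.expand p (NeZero.ne p) (u x)) i =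
      ∑ t ∈ Finset.powersetCard i (Finset.univ : Finset (Option (Fin p))), ∏ x ∈ t, u x := by
  have h : esymmSeriesT p (fun x => PowerSeries.expand p (NeZero.ne p) (u x)) i =
      PowerSeries.expand p (NeZero.ne p)
        (∑ t ∈ Finset.powersetCard i (Finset.univ : Finset (Option (Fin p))), ∏ x ∈ t, u x) := by
    simp only [esymmSeriesT, map_sum, map_prod]
  ext n
  rw [esymmSeries, PowerSeries.coeff_mk, h, PowerSeries.coeff_expand_mul]

/-- **Reduction to `q`-series**: if `φ` maps `P none` to `expand p u₀` and every `P (some j)` to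
`expand p u₁`, it maps `esymmSeries p P i` to `e_i(u₀, u₁, …, u₁)`. -/
theorem esymmSeries_map_eq_esymm {A B : Type*} [CommRing A] [CommRing B] (φ : A →+* B)
    (P : Option (Fin p) → PowerSeries A) (u₀ u₁ : PowerSeries B)
    (h0 : (P none).map φ = PowerSeries.expand p (NeZero.ne p) u₀)
    (h1 : ∀ j, (P (some j)).map φ = PowerSeries.expand p (NeZero.ne p) u₁) (i : ℕ) :
    (esymmSeries p P i).map φ = (u₀ ::ₘ Multiset.replicate p u₁).esymm i := by
  rw [esymmSeries_map, ← sum_powersetCard_option_eq_esymm, ← esymmSeries_expand]
  congr 1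
  funext x
  cases x with
  | none => exact h0
  | some j => exact h1 j

end Fermat.Agent.S16lib.M5
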