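/-
S16 / MT5, analytic side (helper1).  `t`-expansions (`t = e^{2πiτ/p}`) of the conjugates of
`Y = (1/3) E₆ (c E₆ - G E₄)` over a subring `A ⊆ ℂ`, and their reductions in characteristic `3`.
-/
import Fermat.Agent.S16lib.M5.AnForms
import Fermat.Agent.S16lib.M5.Char3
import Fermat.Agent.S16lib.M5.ExpandEsymm
import Fermat.Agent.S16lib.SwDBridge.Formal

set_option autoImplicit false

noncomputable section

namespace Fermat.Agent.S16lib.M5.An

open scoped MatrixGroups ModularForm Manifold
open UpperHalfPlane CongruenceSubgroup ModularForm EisensteinSeries PowerSeries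
open Fermat.Agent.S16lib.TX Fermat.Agent.S16lib.Op Fermat.Agent.S16lib.SwDBridge

/-! ### The divisor-sum series -/

/-- `∑_{n ≥ 1} σ_k(n) qⁿ ∈ ℤ⟦q⟧`. -/
def sigZ (k : ℕ) : PowerSeries ℤ :=
  PowerSeries.mk fun n => (ArithmeticFunction.sigma k n : ℤ)

lemma coeff_ofNat_mul {R : Type*} [CommRing R] (k : ℕ) [k.AtLeastTwo] (f : PowerSeries R)
    (n : ℕ) : coeff n ((OfNat.ofNat k : PowerSeries R) * f) = (OfNat.ofNat k : R) * coeff n f := by
  rw [← map_ofNat (C (R := R)) k, coeff_C_mul]

theorem Qz_eq : Qz = 1 + 240 * sigZ 3 := by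
  ext n
  rw [Qz, coeff_sigmaSeries, map_add, coeff_ofNat_mul, sigZ, coeff_mk, coeff_one]
  split_ifs with h
  · subst h; simp
  · simp

theorem Rz_eq : Rz = 1 + 9 * (-56 * sigZ 5) := by
  ext n
  have h9 : (9 : PowerSeries ℤ) * (-56 * sigZ 5) = C (-504 : ℤ) * sigZ 5 := by
    rw [← mul_assoc]
    congr 1
    rw [map_neg, map_ofNat]
    norm_num
  rw [h9, Rz, coeff_sigmaSeries, map_add, coeff_C_mul, sigZ, coeff_mk, coeff_one]
  split_ifs with h
  · subst h; simp
  · simp

/-- `σ₃ ≡ σ₁ mod 3`. -/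
theorem map_sigZ_three (κ : Type*) [Field κ] [CharP κ 3] :
    (sigZ 3).map (Int.castRingHom κ) = sigmaPS κ := by
  ext n
  rw [PowerSeries.coeff_map, sigZ, coeff_mk, coeff_sigmaPS κ, ArithmeticFunction.sigma_apply,
    ArithmeticFunction.sigma_apply]
  simp only [eq_intCast, pow_one]
  push_cast
  refine Finset.sum_congr rfl fun d _ => ?_
  have h : ((d : ZMod 3)) ^ 3 = d := ZMod.pow_card _
  have h2 := congrArg (ZMod.castHom (dvd_refl 3) κ) h
  rw [map_pow, map_natCast] at h2
  exact h2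


/-! ### `t`-expansions of the level-one Eisenstein series -/

section Alg

variable (p : ℕ) [NeZero p]

/-- the expansion of a `1`-periodic function in `t = q^{1/p}` is the `p`-expansion of its
`q`-expansion. -/
theorem qExpansion_nat_eq_expand {f : ℍ → ℂ} (hf : f ∈ holRing (1 : ℝ)) :
    qExpansion (p : ℝ) f = PowerSeries.expand p (NeZero.ne p) (qExpansion 1 f) := by
  rw [qExpansion_nat_eq p hf]
  ext m
  rw [coeff_mk, PowerSeries.coeff_expand]

variable (A : Type*) [CommRing A]

/-- `∑ σ₃(n) t^{pn}` over `A` -/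
def S3s : PowerSeries A := PowerSeries.expand p (NeZero.ne p) ((sigZ 3).map (Int.castRingHom A))

/-- `∑ σ₅(n) t^{pn}` over `A` -/
def S5s : PowerSeries A := PowerSeries.expand p (NeZero.ne p) ((sigZ 5).map (Int.castRingHom A))

/-- `E₄(t^p)` over `A` -/
def E4s : PowerSeries A := PowerSeries.expand p (NeZero.ne p) (Qz.map (Int.castRingHom A))

/-- `E₆(t^p)` over `A` -/
def E6s : PowerSeries A := PowerSeries.expand p (NeZero.ne p) (Rz.map (Int.castRingHom A))

theorem E4s_eq : E4s p A = 1 + 240 * S3s p A := by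
  rw [E4s, S3s, Qz_eq]
  simp only [map_add, map_mul, map_one, map_ofNat]

theorem E6s_eq : E6s p A = 1 + 9 * (-56 * S5s p A) := by
  rw [E6s, S5s, Rz_eq]
  simp only [map_add, map_mul, map_one, map_ofNat, map_neg]

variable {A}

lemma map_map_intCast {B : Type*} [CommRing B] (φ : A →+* B) (f : PowerSeries ℤ) :
    (f.map (Int.castRingHom A)).map φ = f.map (Int.castRingHom B) := by
  ext n
  simp only [PowerSeries.coeff_map, eq_intCast, map_intCast]

variable {B : Type*} [CommRing B] (φ : A →+* B)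

theorem S3s_map : (S3s p A).map φ = S3s p B := by
  rw [S3s, S3s, PowerSeries.map_expand, map_map_intCast]

theorem S5s_map : (S5s p A).map φ = S5s p B := by
  rw [S5s, S5s, PowerSeries.map_expand, map_map_intCast]

theorem E4s_map : (E4s p A).map φ = E4s p B := by
  rw [E4s, E4s, PowerSeries.map_expand, map_map_intCast]

theorem E6s_map : (E6s p A).map φ = E6s p B := by
  rw [E6s, E6s, PowerSeries.map_expand, map_map_intCast]

/-- `W = (c E₆ - P E₄)/3` for `P = cx + 9 r`, `c - cx = 3 d`, written without division. -/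
def Wser (cA cx d : A) (r : PowerSeries A) : PowerSeries A :=
  C d - 80 * (C cx * S3s p A) + 3 * (C cA * (-56 * S5s p A) - r * E4s p A)

theorem three_mul_Wser (cA cx d : A) (r : PowerSeries A) (h : cA - cx = 3 * d) :
    3 * Wser p cA cx d r = C cA * E6s p A - (C cx + 9 * r) * E4s p A := by
  have h1 : (C cA : PowerSeries A) = C cx + 3 * C d := by
    rw [← map_ofNat (C (R := A)) 3, ← map_mul, ← map_add, ← h]
    congr 1
    ring
  rw [Wser, E6s_eq, h1]
  rw [E4s_eq]
  ring

/-- the `t`-expansion of `(1/3) E₆ (c E₆ - P E₄)` -/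
def PYser (cA cx d : A) (r : PowerSeries A) : PowerSeries A :=
  E6s p A * Wser p cA cx d r

theorem three_mul_PYser (cA cx d : A) (r : PowerSeries A) (h : cA - cx = 3 * d) :
    3 * PYser p cA cx d r = E6s p A * (C cA * E6s p A - (C cx + 9 * r) * E4s p A) := by
  rw [PYser, ← three_mul_Wser p cA cx d r h]
  ring

theorem Wser_map (cA cx d : A) (r : PowerSeries A) :
    (Wser p cA cx d r).map φ = Wser p (φ cA) (φ cx) (φ d) (r.map φ) := by
  rw [Wser, Wser]
  simp only [map_add, map_sub, map_mul, map_neg, map_ofNat, PowerSeries.map_C, S3s_map, S5s_map,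
    E4s_map]

theorem PYser_map (cA cx d : A) (r : PowerSeries A) :
    (PYser p cA cx d r).map φ = PYser p (φ cA) (φ cx) (φ d) (r.map φ) := by
  rw [PYser, PYser, map_mul, E6s_map, Wser_map]

end Alg

/-! ### Characteristic `3` -/

section Char3

variable (p : ℕ) [NeZero p] (κ : Type*) [Field κ] [CharP κ 3]

lemma three_eq_zero_ps : (3 : PowerSeries κ) = 0 := by
  rw [← map_ofNat (C (R := κ)) 3]
  have : (3 : κ) = 0 := by exact_mod_cast CharP.cast_eq_zero κ 3
  rw [this, map_zero]

theorem S3s_char3 : S3s p κ = PowerSeries.expand p (NeZero.ne p) (sigmaPS κ) := by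
  rw [S3s, map_sigZ_three]

theorem E6s_char3 : E6s p κ = 1 := by
  rw [E6s_eq]
  have h9 : (9 : PowerSeries κ) = 3 * 3 := by norm_num
  rw [h9, three_eq_zero_ps]
  ring

variable {κ}

theorem Wser_char3 (cA cx d : κ) (r : PowerSeries κ) :
    Wser p cA cx d r = PowerSeries.expand p (NeZero.ne p) (C d + C cx * sigmaPS κ) := by
  rw [Wser, S3s_char3, map_add, map_mul, PowerSeries.expand_C, PowerSeries.expand_C]
  have h80 : (80 : PowerSeries κ) = 3 * 27 - 1 := by norm_num
  rw [h80, three_eq_zero_ps]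
  ring

theorem PYser_char3 (cA cx d : κ) (r : PowerSeries κ) :
    PYser p cA cx d r = PowerSeries.expand p (NeZero.ne p) (C d + C cx * sigmaPS κ) := by
  rw [PYser, E6s_char3, one_mul, Wser_char3]

end Char3

/-! ### Decomposition of the conjugate series of `G` -/

section Decomp

variable (p : ℕ) [NeZero p] {A : Type*} [CommRing A]

/-- constant terms of the conjugates of `G` -/
def cxOf (pk c : A) : Option (Fin p) → A
  | none => c
  | some _ => pk * (-c)

/-- `(c - cx)/3` -/
def dOf (pk c e : A) : Option (Fin p) → A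
  | none => 0
  | some _ => c * (e * pk)

/-- the higher parts (divided by `9`) of the conjugates of `G` -/
def rOf (ζ pk : A) (m : ℕ → A) : Option (Fin p) → PowerSeries A
  | none => PowerSeries.mk fun n => if p ∣ n then m (n / p) else 0
  | some j => PowerSeries.mk fun n => pk * (-(m (n * p))) * ζ ^ ((j : ℕ) * n)

theorem conjSeries_decomp (ζ pk c : A) (m a b : ℕ → A)
    (ha : ∀ n, a n = (if n = 0 then c else 0) + 9 * m n) (hb : ∀ n, b n = -a (n * p))
    (x : Option (Fin p)) :
    conjSeries p ζ pk a b x = C (cxOf p pk c x) + 9 * rOf p ζ pk m x := by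
  have hp0 : p ≠ 0 := NeZero.ne p
  cases x with
  | none =>
    ext n
    rw [conjSeries, coeff_mk, map_add, coeff_ofNat_mul, cxOf, rOf, coeff_mk, coeff_C]
    by_cases hd : p ∣ n
    · rw [if_pos hd, if_pos hd, ha]
      have : n / p = 0 ↔ n = 0 := by
        rw [Nat.div_eq_zero_iff]
        constructor
        · rintro (h | h)
          · exact absurd h hp0
          · by_contra hn
            exact absurd (Nat.le_of_dvd (Nat.pos_of_ne_zero hn) hd) (by omega)
        · rintro rfl
          exact Or.inr (Nat.pos_of_ne_zero hp0)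
      simp only [this]
    · rw [if_neg hd, if_neg hd]
      have : n ≠ 0 := fun h => hd (h ▸ dvd_zero p)
      rw [if_neg this]
      ring
  | some j =>
    ext n
    rw [conjSeries, coeff_mk, map_add, coeff_ofNat_mul, cxOf, rOf, coeff_mk, coeff_C, hb, ha]
    have : n * p = 0 ↔ n = 0 := by
      rw [mul_eq_zero]
      exact ⟨fun h => h.resolve_right hp0, Or.inl⟩
    simp only [this]
    by_cases hn : n = 0
    · subst hn
      simp only [if_true, mul_zero, pow_zero]
      ring
    · simp only [if_neg hn]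
      ring

omit [NeZero p] in
theorem sub_cxOf (pk c e : A) (hpk : pk * (p : A) = 1) (he : ((p : A) + 1) = 3 * e)
    (x : Option (Fin p)) : c - cxOf p pk c x = 3 * dOf p pk c e x := by
  cases x with
  | none => simp [cxOf, dOf]
  | some j =>
    rw [cxOf, dOf]
    linear_combination (-c) * hpk + (c * pk) * he

end Decomp

/-! ### Reduction of `e_i` of the conjugate series of `Y` -/

section Reduce

variable (p : ℕ) [NeZero p] {A : Type*} [CommRing A] {κ : Type*} [Field κ] [CharP κ 3]

/-- the formal `t`-expansions of the conjugates of `Y` -/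
def PYfam (ζ pk c e : A) (m : ℕ → A) (x : Option (Fin p)) : PowerSeries A :=
  PYser p c (cxOf p pk c x) (dOf p pk c e x) (rOf p ζ pk m x)

theorem PYfam_map_red (red : A →+* κ) (ζ pk c e : A) (m : ℕ → A) (hpk : red pk = -1)
    (x : Option (Fin p)) :
    (PYfam p ζ pk c e m x).map red = PowerSeries.expand p (NeZero.ne p)
      (Option.elim x (red c • sigmaPS κ) fun _ => red c • sigmaPS κ - C (red c * red e)) := by
  rw [PYfam, PYser_map, PYser_char3]
  congr 1
  cases x with
  | none => simp [cxOf, dOf, PowerSeries.smul_eq_C_mul]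
  | some j =>
    simp only [cxOf, dOf, map_mul, map_neg, hpk, PowerSeries.smul_eq_C_mul, Option.elim_some,
      map_one]
    ring

theorem esymmSeries_PYfam_map (red : A →+* κ) (ζ pk c e : A) (m : ℕ → A) (hpk : red pk = -1)
    (i : ℕ) :
    (esymmSeries p (PYfam p ζ pk c e m) i).map red =
      ((red c • sigmaPS κ) ::ₘ
        Multiset.replicate p (red c • sigmaPS κ - C (red c * red e))).esymm i := by
  rw [esymmSeries_map]
  have h : (fun x => (PYfam p ζ pk c e m x).map red) = fun x =>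
      PowerSeries.expand p (NeZero.ne p)
        (Option.elim x (red c • sigmaPS κ) fun _ => red c • sigmaPS κ - C (red c * red e)) := by
    funext x
    exact PYfam_map_red p red ζ pk c e m hpk x
  rw [h, esymmSeries_expand, sum_powersetCard_option_eq_esymm]

end Reduce

/-! ### The analytic input -/

section Analytic

variable (p : ℕ) [Fact p.Prime]

theorem qExpansion_Yfun (c : ℂ) {g : ℍ → ℂ} (hg : g ∈ holRing (p : ℝ)) :
    qExpansion (p : ℝ) (Yfun c g) =
      (1 / 3 : ℂ) • (E6s p ℂ * (c • E6s p ℂ - qExpansion (p : ℝ) g * E4s p ℂ)) := by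
  have hh := natCast_pos' p
  have h4 : (⇑E₄ : ℍ → ℂ) ∈ holRing (p : ℝ) :=
    holRing_one_le p (coe_mem_holRing_one_levelOne E₄)
  have h6 : (⇑E₆ : ℍ → ℂ) ∈ holRing (p : ℝ) :=
    holRing_one_le p (coe_mem_holRing_one_levelOne E₆)
  have e4 : qExpansion (p : ℝ) (⇑E₄ : ℍ → ℂ) = E4s p ℂ := by
    rw [qExpansion_nat_eq_expand p (coe_mem_holRing_one_levelOne E₄), qExpansion_E₄', E4s]
  have e6 : qExpansion (p : ℝ) (⇑E₆ : ℍ → ℂ) = E6s p ℂ := by
    rw [qExpansion_nat_eq_expand p (coe_mem_holRing_one_levelOne E₆), qExpansion_E₆', E6s]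
  have hgm := (holRing (p : ℝ)).mul_mem hg h4
  have hs := smul_mem_holRing c h6
  have hsub := (holRing (p : ℝ)).sub_mem hs hgm
  rw [Yfun, qExpansion_smul_of_mem hh ((holRing (p : ℝ)).mul_mem h6 hsub),
    qExpansion_mul_of_mem hh h6 hsub, qExpansion_sub_of_mem hh hs hgm,
    qExpansion_smul_of_mem hh h6, qExpansion_mul_of_mem hh hg h4, e4, e6]

theorem qExpansion_Yfun_eq_map (A : Subring ℂ) (cA cx d : A) (r : PowerSeries A)
    (h : cA - cx = 3 * d) {g : ℍ → ℂ} (hg : g ∈ holRing (p : ℝ))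
    (hP : qExpansion (p : ℝ) g = (C cx + 9 * r).map A.subtype) :
    qExpansion (p : ℝ) (Yfun (cA : ℂ) g) = (PYser p cA cx d r).map A.subtype := by
  rw [qExpansion_Yfun p _ hg, hP]
  have h3 := congrArg (PowerSeries.map A.subtype) (three_mul_PYser p cA cx d r h)
  rw [map_mul, map_ofNat, map_mul, map_sub, map_mul, map_mul, E6s_map, E4s_map,
    PowerSeries.map_C] at h3
  rw [PowerSeries.smul_eq_C_mul (a := (cA : ℂ))]
  have h4 : (A.subtype cA : ℂ) = (cA : ℂ) := rfl
  rw [h4] at h3
  rw [← h3, PowerSeries.smul_eq_C_mul, ← mul_assoc, ← map_ofNat (C (R := ℂ)) 3, ← map_mul]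
  norm_num

theorem qExpansion_conj_Yform (G : ModularForm (Gamma0 p) 2) (A : Subring ℂ) (ζ pk c e : A)
    (m a b : ℕ → A) (hζ : (ζ : ℂ) = zetaP p) (hpk : (pk : ℂ) = (p : ℂ) ^ (1 - (2 : ℤ)))
    (ha : ∀ n, (qExpansion 1 ⇑G).coeff n = a n)
    (hb : ∀ n, (qExpansion 1 ⇑(wSlash p G)).coeff n = b n)
    (hadec : ∀ n, a n = (if n = 0 then c else 0) + 9 * m n) (hbdec : ∀ n, b n = -a (n * p))
    (hpk1 : pk * (p : A) = 1) (he : ((p : A) + 1) = 3 * e) (x : Option (Fin p)) :
    qExpansion (p : ℝ) (conj p (Yform p G (c : ℂ)) x) =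
      (PYfam p ζ pk c e m x).map A.subtype := by
  rw [conj_Yform, PYfam]
  refine qExpansion_Yfun_eq_map p A c _ _ _ (sub_cxOf p pk c e hpk1 he x)
    (conj_mem_holRing p G x) ?_
  rw [qExpansion_conj_eq_map p G A ζ pk a b hζ hpk ha hb x,
    conjSeries_decomp p ζ pk c m a b hadec hbdec x]

/-- **Integrality**: the `q`-expansion of `e_i` of the conjugates of `Y`. -/
theorem qExpansion_one_esymmForm_Yform (G : ModularForm (Gamma0 p) 2) (A : Subring ℂ)
    (ζ pk c e : A) (m a b : ℕ → A) (hζ : (ζ : ℂ) = zetaP p)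
    (hpk : (pk : ℂ) = (p : ℂ) ^ (1 - (2 : ℤ)))
    (ha : ∀ n, (qExpansion 1 ⇑G).coeff n = a n)
    (hb : ∀ n, (qExpansion 1 ⇑(wSlash p G)).coeff n = b n)
    (hadec : ∀ n, a n = (if n = 0 then c else 0) + 9 * m n) (hbdec : ∀ n, b n = -a (n * p))
    (hpk1 : pk * (p : A) = 1) (he : ((p : A) + 1) = 3 * e) (i : ℕ) :
    qExpansion 1 ⇑(esymmForm p (Yform p G (c : ℂ)) i) =
      (esymmSeries p (PYfam p ζ pk c e m) i).map A.subtype :=
  qExpansion_one_esymmForm_eq_map p (Yform p G (c : ℂ)) A _
    (qExpansion_conj_Yform p G A ζ pk c e m a b hζ hpk ha hb hadec hbdec hpk1 he) i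

end Analytic

end Fermat.Agent.S16lib.M5.An
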