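/-
S16 / package M5 (helper2): assembly.  From level-one forms `f i` of weight `12 i` with
`q`-expansions `a i ∈ A⟦q⟧` whose reductions are the elementary symmetric functions of
`c S̄, (c S̄ - c β)^{× p}` we derive a contradiction (`false_of_esymm`): `a i = Δ^i P_i(j)`, so
`Σ (-1)^i P̄_i(j) Y^{p+1-i}` specialises to `(Y - s)(Y - s + b')^p`, which `M5.no_poly` forbids.
-/
import Fermat.Agent.S16lib.M5.Char3
import Fermat.Agent.S16lib.M5.JPoly

set_option autoImplicit false

noncomputable section

namespace Fermat.Agent.S16lib.M5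

open UpperHalfPlane ModularForm MatrixGroups
open ModularCurve Fermat.Agent.S28lib Polynomial

theorem coeffMap_ofPowerSeries {R S : Type*} [CommRing R] [CommRing S] (φ : R →+* S)
    (a : PowerSeries R) :
    coeffMap φ (HahnSeries.ofPowerSeries ℤ R a) = HahnSeries.ofPowerSeries ℤ S (a.map φ) := by
  ext n
  rw [coeffMap_coeff]
  rcases lt_or_ge n 0 with hn | hn
  · rw [ofPowerSeries_coeff_of_neg _ hn, ofPowerSeries_coeff_of_neg _ hn, map_zero]
  · lift n to ℕ using hn
    rw [HahnSeries.ofPowerSeries_apply_coeff, HahnSeries.ofPowerSeries_apply_coeff,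
      PowerSeries.coeff_map]

theorem map_esymm_ringHom {R S : Type*} [CommSemiring R] [CommSemiring S] (f : R →+* S)
    (s : Multiset R) (n : ℕ) : f (s.esymm n) = (s.map f).esymm n := by
  unfold Multiset.esymm
  rw [map_multiset_sum, Multiset.powersetCard_map, Multiset.map_map, Multiset.map_map]
  congr 1
  apply Multiset.map_congr rfl
  intro t _
  simp [map_multiset_prod]

variable {κ : Type*} [Field κ]

theorem ofPowerSeries_smul_sigmaPS (c : κ) :
    HahnSeries.ofPowerSeries ℤ κ (c • sigmaPS κ) =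
      algebraMap κ (LaurentSeries κ) c * sigmaL κ := by
  rw [PowerSeries.smul_eq_C_mul, map_mul, HahnSeries.ofPowerSeries_C, algebraMap_laurent_eq_C,
    sigmaL]

theorem jq_mul_ofPowerSeries_u0 (c : κ) :
    jqModC κ * HahnSeries.ofPowerSeries ℤ κ (c • sigmaPS κ) = sRed κ c := by
  rw [ofPowerSeries_smul_sigmaPS, sRed]; ring

theorem jq_mul_ofPowerSeries_u1 (c β : κ) :
    jqModC κ * HahnSeries.ofPowerSeries ℤ κ (c • sigmaPS κ - PowerSeries.C (c * β)) =
      sRed κ c - bRed κ c β := by
  rw [map_sub, ofPowerSeries_smul_sigmaPS, HahnSeries.ofPowerSeries_C, sRed, bRed,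
    ← algebraMap_laurent_eq_C]
  ring

/-- **M5, assembly.** -/
theorem false_of_esymm [CharP κ 3] (p : ℕ) (hp : p % 3 = 2) (A : Subring ℂ) (red : A →+* κ)
    (c β : κ) (hc : c ≠ 0) (w : ℕ → ℤ) (hw : ∀ i, w i = 12 * (i : ℤ))
    (f : ∀ i, ModularForm 𝒮ℒ (w i)) (a : ℕ → PowerSeries A)
    (ha : ∀ i, (a i).map A.subtype = qExpansion 1 (f i))
    (hred : ∀ i, (a i).map red =
      ((c • sigmaPS κ) ::ₘ
        Multiset.replicate p (c • sigmaPS κ - PowerSeries.C (c * β))).esymm i) : False := by
  choose P hP using fun i => exists_jPoly A i (w i) (hw i) (f i) (a i) (ha i)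
  set V : Multiset (LaurentSeries κ) :=
    sRed κ c ::ₘ Multiset.replicate p (sRed κ c - bRed κ c β) with hV
  -- the reduced identity
  have hPb : ∀ i, evalJ κ (jqModC κ) ((P i).map red) = V.esymm i := by
    intro i
    have h1 := congrArg (coeffMap red) (hP i)
    rw [coeffMap_ofPowerSeries, map_mul, map_pow, coeffMap_DeltaQ, coeffMap_evalJ,
      coeffMap_jqModC, hred i, map_esymm_ringHom] at h1
    have h2 : evalJ κ (jqModC κ) ((P i).map red) = jqModC κ ^ i •
        (Multiset.map (HahnSeries.ofPowerSeries ℤ κ) ((c • sigmaPS κ) ::ₘ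
          Multiset.replicate p (c • sigmaPS κ - PowerSeries.C (c * β)))).esymm i := by
      rw [h1, smul_eq_mul, ← mul_assoc, ← mul_pow, jqModC_mul_DeltaQ, one_pow, one_mul]
    rw [h2, Multiset.pow_smul_esymm, Multiset.map_map, hV]
    congr 1
    rw [Multiset.map_cons, Multiset.map_replicate]
    simp only [Function.comp_apply, smul_eq_mul]
    rw [jq_mul_ofPowerSeries_u0, jq_mul_ofPowerSeries_u1]
  have hcard : Multiset.card V = p + 1 := by
    rw [hV, Multiset.card_cons, Multiset.card_replicate]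
  refine no_poly κ p hp c β hc
    (∑ j ∈ Finset.range (p + 1 + 1), (-1) ^ j * (C ((P j).map red) * X ^ (p + 1 - j))) ?_
  have hprod := Multiset.prod_X_sub_X_eq_sum_esymm V
  rw [hcard] at hprod
  rw [Polynomial.map_sum]
  simp only [Polynomial.map_mul, Polynomial.map_pow, Polynomial.map_neg, Polynomial.map_one,
    Polynomial.map_C, Polynomial.map_X, hPb]
  rw [← hprod, hV, Multiset.map_cons, Multiset.prod_cons, Multiset.map_replicate,
    Multiset.prod_replicate]

end Fermat.Agent.S16lib.M5
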