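/-
S16 / **MT5** (helper1 analytic + helper2 algebra).  For a prime `p ≡ 2 mod 3` there is no
weight-2 form on `Γ₀(p)` with integer coefficients, constant term prime to `3` and all higher
coefficients divisible by `9`.

Proof: `Y = (1/3) E₆ (c E₆ - G E₄) ∈ M₁₂(Γ₀(p))`; the elementary symmetric functions of its `p + 1`
conjugates are level-one forms of weight `12 i` with `q`-expansions over `A = ellIntegers 3`
(`qExpansion_one_esymmForm_Yform`) whose reductions are `e_i(c̄ S̄, (c̄ S̄ - c̄ β̄)^{× p})`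
(`esymmSeries_PYfam_map`); `false_of_esymm` concludes.
-/
import Fermat.Agent.S16lib.M5.AnExpand
import Fermat.Agent.S16lib.M5.Assemble
import Fermat.Agent.S16lib.M1Glue
import Fermat.Agent.S16lib.Op.Weight2
import Fermat.Agent.S16lib.UpperBound

set_option autoImplicit false

noncomputable section

namespace Fermat.Agent.S16lib.M5

open PowerSeries CongruenceSubgroup ModularFormClass
open scoped MatrixGroups
open Fermat.Agent.S16lib.M1
open Fermat.Agent.S16lib.M5.An

theorem mt5 (p : ℕ) [hp : Fact p.Prime] (hp3 : p % 3 = 2) : Red16.NoUnitConst p 3 2 := by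
  intro G hint h0 hk
  have h3 : Fact (Nat.Prime 3) := ⟨Nat.prime_three⟩
  have h3p : 3 ≠ p := by omega
  -- the integer coefficient sequence
  choose a ha using hint
  have hc : ¬ ((3 : ℕ) : ℤ) ∣ a 0 := h0 (a 0) (ha 0)
  have hdiv : ∀ k, ∃ m : ℤ, a k = (if k = 0 then a 0 else 0) + 9 * m := by
    intro k
    by_cases hk0 : k = 0
    · exact ⟨0, by simp [hk0]⟩
    · obtain ⟨m, hm⟩ := hk k (Nat.one_le_iff_ne_zero.mpr hk0)
      refine ⟨m, ?_⟩
      rw [if_neg hk0, zero_add]
      have : ((a k : ℤ) : ℂ) = ((9 * m : ℤ) : ℂ) := by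
        rw [← ha k, hm]; push_cast; norm_num
      exact_mod_cast this
  choose m hm using hdiv
  -- the data over `A`
  set A := ellIntegers 3 with hA
  set aA : ℕ → A := fun n => ((a n : ℤ) : A) with haA
  set bA : ℕ → A := fun n => -((a (n * p) : ℤ) : A) with hbA
  set mA : ℕ → A := fun n => ((m n : ℤ) : A) with hmA
  set cA : A := ((a 0 : ℤ) : A) with hcA
  set eA : A := (((p + 1) / 3 : ℕ) : A) with heA
  have hζ : ((zetaA p 3 : A) : ℂ) = TX.zetaP p := rfl
  have hpk : ((pInvA p 3 h3p : A) : ℂ) = (p : ℂ) ^ (1 - (2 : ℤ)) := by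
    rw [coe_pInvA]
    norm_num
  have haq : ∀ n, (UpperHalfPlane.qExpansion 1 ⇑G).coeff n = aA n := by
    intro n
    have := ha n
    rw [ModularFormClass.qCoeff] at this
    rw [this]
    simp [haA]
  have hbq : ∀ n, (UpperHalfPlane.qExpansion 1 ⇑(Op.wSlash p G)).coeff n = bA n := by
    intro n
    have h1 := Op.qCoeff_wSlash p G n
    rw [ModularFormClass.qCoeff, ModularFormClass.qCoeff] at h1
    rw [h1]
    have := ha (n * p)
    rw [ModularFormClass.qCoeff] at this
    rw [this]
    simp [hbA]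
  have hadec : ∀ n, aA n = (if n = 0 then cA else 0) + 9 * mA n := by
    intro n
    simp only [haA, hmA, hcA]
    rw [hm n]
    split_ifs <;> push_cast <;> ring
  have hbdec : ∀ n, bA n = -aA (n * p) := fun n => rfl
  have hpk1 : pInvA p 3 h3p * (p : A) = 1 := by
    apply Subtype.ext
    push_cast
    rw [coe_pInvA]
    exact inv_mul_cancel₀ (Nat.cast_ne_zero.mpr hp.out.ne_zero)
  have he : ((p : A) + 1) = 3 * eA := by
    have h1 : p + 1 = 3 * ((p + 1) / 3) := by omega
    rw [heA]
    exact_mod_cast congrArg (Nat.cast : ℕ → A) h1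
  have hpkred : ellRed 3 (pInvA p 3 h3p) = -1 := by
    have h1 := congrArg (ellRed 3) hpk1
    rw [map_mul, map_natCast, map_one, natCast_eq_neg_one p hp3] at h1
    linear_combination -h1
  have hcA' : ((cA : A) : ℂ) = ((a 0 : ℤ) : ℂ) := by simp [hcA]
  -- the endgame
  refine false_of_esymm p hp3 A (ellRed 3) (ellRed 3 cA) (ellRed 3 eA)
    (ellRed_intCast_ne_zero 3 hc) (fun i => (12 : ℤ) * (i : ℤ)) (fun i => rfl)
    (fun i => TX.esymmForm p (Yform p G (cA : ℂ)) i)
    (fun i => TX.esymmSeries p (PYfam p (zetaA p 3) (pInvA p 3 h3p) cA eA mA) i) ?_ ?_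
  · intro i
    exact (qExpansion_one_esymmForm_Yform p G A (zetaA p 3) (pInvA p 3 h3p) cA eA mA aA bA hζ hpk
      haq hbq hadec hbdec hpk1 he i).symm
  · intro i
    exact esymmSeries_PYfam_map p (ellRed 3) (zetaA p 3) (pInvA p 3 h3p) cA eA mA hpkred i

end Fermat.Agent.S16lib.M5
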