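/-
S16 / package M5 (helper2): the formal arithmetic behind `Y = E₆ (c E₆ - g E₄) / 3`.

* `Yser c d h s3 s5 = c s3 - d + 3 · Yrem …` is an explicit polynomial expression with
  `3 · Yser = e6 (c e6 - g e4)` for `e4 = 1 + 240 s3`, `e6 = 1 - 504 s5`, `g = c + 3 d + 9 h`
  (`three_mul_Yser`), compatible with ring homomorphisms (`map_Yser`), and equal to `c s3 - d`
  in characteristic `3` (`Yser_of_three_eq_zero`).
* `sigmaSer k R = Σ σ_k(n) qⁿ`, `Qz.map = 1 + 240 sigmaSer 3`, `Rz.map = 1 - 504 sigmaSer 5`,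
  and `sigmaSer 3 κ = sigmaPS κ` in characteristic `3`.
-/
import Fermat.Agent.S16lib.M5.Char3
import Fermat.Agent.S16lib.SwDBridge.Formal

set_option autoImplicit false

noncomputable section

namespace Fermat.Agent.S16lib.M5

open Fermat.Agent.S16lib.SwDBridge

section Formal

variable {B : Type*} [CommRing B]

/-- the remainder `r` in `Y = c s3 - d + 3 r` -/
def Yrem (c d h s3 s5 : B) : B :=
  -56 * c * s5 - 27 * c * s3 - 80 * d * s3 - h * (1 + 240 * s3)
    - 168 * s5 * (-168 * c * s5 - 80 * c * s3 - d * (1 + 240 * s3) - 3 * h * (1 + 240 * s3))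

/-- the series `Y = e6 (c e6 - g e4) / 3`, written without division -/
def Yser (c d h s3 s5 : B) : B := c * s3 - d + 3 * Yrem c d h s3 s5

theorem three_mul_Yser (c d h s3 s5 : B) :
    3 * Yser c d h s3 s5 =
      (1 - 504 * s5) * (c * (1 - 504 * s5) - (c + 3 * d + 9 * h) * (1 + 240 * s3)) := by
  rw [Yser, Yrem]; ring

/-- uniqueness form: anything `Y` with `3 Y = e6 (c e6 - g e4)` in a `3`-torsion-free ring is
`Yser`. -/
theorem eq_Yser_of_three_mul [IsDomain B] [CharZero B] {c d h s3 s5 g e4 e6 Y : B}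
    (hg : g = c + 3 * d + 9 * h) (he4 : e4 = 1 + 240 * s3) (he6 : e6 = 1 - 504 * s5)
    (hY : 3 * Y = e6 * (c * e6 - g * e4)) : Y = Yser c d h s3 s5 := by
  have h3 : (3 : B) ≠ 0 := by exact_mod_cast (by norm_num : (3 : ℕ) ≠ 0)
  apply mul_left_cancel₀ h3
  rw [hY, three_mul_Yser, hg, he4, he6]

theorem map_Yser {B' : Type*} [CommRing B'] (φ : B →+* B') (c d h s3 s5 : B) :
    φ (Yser c d h s3 s5) = Yser (φ c) (φ d) (φ h) (φ s3) (φ s5) := by
  simp only [Yser, Yrem, map_add, map_sub, map_mul, map_neg, map_ofNat, map_one]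

theorem Yser_of_three_eq_zero (h3 : (3 : B) = 0) (c d h s3 s5 : B) :
    Yser c d h s3 s5 = c * s3 - d := by
  rw [Yser, h3, zero_mul, add_zero]

end Formal

section Sigma

/-- `Σ σ_k(n) qⁿ` over any commutative ring. -/
def sigmaSer (k : ℕ) (R : Type*) [CommRing R] : PowerSeries R :=
  PowerSeries.mk fun n => ((ArithmeticFunction.sigma k n : ℕ) : R)

@[simp] theorem coeff_sigmaSer (k : ℕ) (R : Type*) [CommRing R] (n : ℕ) :
    PowerSeries.coeff n (sigmaSer k R) = ((ArithmeticFunction.sigma k n : ℕ) : R) :=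
  PowerSeries.coeff_mk _ _

theorem map_sigmaSer (k : ℕ) {R R' : Type*} [CommRing R] [CommRing R'] (φ : R →+* R') :
    (sigmaSer k R).map φ = sigmaSer k R' := by
  ext n
  simp

theorem sigmaSeries_map (k : ℕ) (c : ℤ) (R : Type*) [CommRing R] :
    (sigmaSeries k c).map (Int.castRingHom R) = 1 + PowerSeries.C (c : R) * sigmaSer k R := by
  ext n
  rw [PowerSeries.coeff_map, coeff_sigmaSeries, map_add, PowerSeries.coeff_one,
    PowerSeries.coeff_C_mul, coeff_sigmaSer]
  split_ifs with h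
  · subst h
    simp
  · simp

theorem Qz_map (R : Type*) [CommRing R] :
    Qz.map (Int.castRingHom R) = 1 + 240 * sigmaSer 3 R := by
  rw [Qz, sigmaSeries_map]
  have : (PowerSeries.C (((240 : ℤ) : R)) : PowerSeries R) = 240 := by
    rw [show ((240 : ℤ) : R) = ((240 : ℕ) : R) by norm_cast, map_natCast]; norm_cast
  rw [this]

theorem Rz_map (R : Type*) [CommRing R] :
    Rz.map (Int.castRingHom R) = 1 - 504 * sigmaSer 5 R := by
  rw [Rz, sigmaSeries_map]
  have : (PowerSeries.C (((-504 : ℤ)) : R) : PowerSeries R) = -504 := by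
    rw [show (((-504 : ℤ)) : R) = -((504 : ℕ) : R) by norm_cast, map_neg, map_natCast]; norm_cast
  rw [this]
  ring

/-- `σ₃ ≡ σ₁` in characteristic `3`. -/
theorem sigmaSer_three_eq (κ : Type*) [Field κ] [CharP κ 3] : sigmaSer 3 κ = sigmaPS κ := by
  have : Fact (Nat.Prime 3) := ⟨Nat.prime_three⟩
  ext n
  rw [coeff_sigmaSer, coeff_sigmaPS, ArithmeticFunction.sigma_apply,
    ArithmeticFunction.sigma_apply]
  push_cast
  refine Finset.sum_congr rfl fun d _ => ?_
  have := map_natCast (frobenius κ 3) d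
  rw [frobenius_def] at this
  rw [this, pow_one]

end Sigma

end Fermat.Agent.S16lib.M5
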