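import Fermat.Agent.S16lib.M4.Forms
import Fermat.Agent.S16lib.TX.Esymm

/-!
# S16, MT5: the weight-12 form `Y = E₆ (c E₆ - G E₄)/3` on `Γ₀(p)` and its conjugates
-/

set_option autoImplicit false

noncomputable section

namespace Fermat.Agent.S16lib.M5.Forms

open UpperHalfPlane ModularForm MatrixGroups CongruenceSubgroup EisensteinSeries
open scoped Modular
open Fermat.Agent.ProgramR.LevelOne Fermat.Agent.S16lib.M4.Forms

/-- `Y = E₆ (c E₆ - g E₄)/3`. -/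
def Yfun (c : ℂ) (g : ℍ → ℂ) : ℍ → ℂ := fun τ => E₆ τ * (c * E₆ τ - g τ * E₄ τ) / 3

/-- The conjugates of `Y`: `Y(g) ∣₁₂ γ = Y(g ∣₂ γ)`. -/
theorem Yfun_slash (c : ℂ) (g : ℍ → ℂ) (γ : SL(2, ℤ)) :
    Yfun c g ∣[(12 : ℤ)] γ = Yfun c (g ∣[(2 : ℤ)] γ) := by
  funext τ
  have hd : denom γ τ ≠ 0 := denom_ne_zero _ _
  rw [ModularForm.SL_slash_apply, Yfun, Yfun, apply_smul_eq g γ τ]
  have h4 := E₄_smul γ τ
  have h6 := E₆_smul γ τ
  rw [h4, h6]
  have e4 : denom γ τ ^ (4 : ℤ) = denom γ τ ^ 4 := by norm_cast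
  have e6 : denom γ τ ^ (6 : ℤ) = denom γ τ ^ 6 := by norm_cast
  have e12 : denom γ τ ^ (-12 : ℤ) = (denom γ τ ^ 12)⁻¹ := by
    rw [zpow_neg]; norm_cast
  rw [e4, e6, e12]
  field_simp

variable (p : ℕ) (G : ModularForm (Gamma0 p) 2) (c : ℂ)

/-- `Y = E₆ (c E₆ - G E₄)/3 ∈ M₁₂(Γ₀(p))`. -/
def Yform : ModularForm (Gamma0 p) 12 :=
  (3⁻¹ : ℂ) • ModularForm.mcast (by norm_num)
    ((E6p p).mul (c • E6p p - ModularForm.mcast (by norm_num) (G.mul (E4p p))))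

theorem coe_Yform : ⇑(Yform p G c) = Yfun c ⇑G := by
  funext τ
  simp only [Yform, Yfun, smul_apply, sub_apply, ModularForm.mcast_apply,
    ModularForm.coe_mul, Pi.mul_apply, E4p, E6p, coe_restrictForm, smul_eq_mul]
  ring

/-- The conjugates of `Y` under `SL(2,ℤ)`. -/
theorem Yform_slash (γ : SL(2, ℤ)) :
    ⇑(Yform p G c) ∣[(12 : ℤ)] γ = Yfun c (⇑G ∣[(2 : ℤ)] γ) := by
  rw [coe_Yform, Yfun_slash]

/-- The `p + 1` conjugates of `Y` are `Y` of the conjugates of `G`. -/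
theorem conj_Yform (x : Option (Fin p)) :
    TX.conj p (Yform p G c) x = Yfun c (TX.conj p G x) := by
  cases x with
  | none => rw [TX.conj_none, TX.conj_none, coe_Yform]
  | some j => rw [TX.conj_some, TX.conj_some, Yform_slash]

end Fermat.Agent.S16lib.M5.Forms
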