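/-
S16 / package M5 (helper2): `t`-expansion of `Y = E₆ (c E₆ - g E₄) / 3` from the `t`-expansion
`c + 3d + 9h` of `g`, over a subring `A ⊆ ℂ`, and its reduction in characteristic `3`.
-/
import Fermat.Agent.S16lib.M5.Arith
import Fermat.Agent.S16lib.TX.Forms
import Fermat.Agent.S16lib.SwDBridge.Structure

set_option autoImplicit false

noncomputable section

namespace Fermat.Agent.S16lib.M5

open UpperHalfPlane ModularForm MatrixGroups CongruenceSubgroup EisensteinSeries ModularFormClass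
open Fermat.Agent.S16lib.TX Fermat.Agent.S16lib.SwDBridge

theorem charZero_powerSeries_complex : CharZero (PowerSeries ℂ) :=
  ⟨fun m n h => by
    have h1 := congrArg (PowerSeries.constantCoeff (R := ℂ)) h
    rw [map_natCast, map_natCast] at h1
    exact_mod_cast h1⟩

variable (p : ℕ) [NeZero p]

/-- the `t`-expansion (`t = q^{1/p}`) of a `1`-periodic function is `expand p` of its
`q`-expansion -/
theorem qExpansion_nat_eq_expand {f : ℍ → ℂ} (hf : f ∈ holRing (1 : ℝ)) :
    qExpansion (p : ℝ) f = PowerSeries.expand p (NeZero.ne p) (qExpansion 1 f) := by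
  rw [qExpansion_nat_eq p hf]
  ext m
  rw [PowerSeries.coeff_mk, PowerSeries.coeff_expand]

variable (A : Subring ℂ)

/-- `Σ σ₃(n) t^{pn}` over `A`. -/
def s3A : PowerSeries A := PowerSeries.expand p (NeZero.ne p) (sigmaSer 3 A)
/-- `Σ σ₅(n) t^{pn}` over `A`. -/
def s5A : PowerSeries A := PowerSeries.expand p (NeZero.ne p) (sigmaSer 5 A)

theorem qExpansion_E₄_level :
    qExpansion (p : ℝ) (⇑E₄ : ℍ → ℂ) = (1 + 240 * s3A p A).map A.subtype := by
  rw [qExpansion_nat_eq_expand p (coe_mem_holRing_one_levelOne E₄), qExpansion_E₄', Qz_map, s3A]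
  simp only [map_add, map_mul, map_one, map_ofNat, PowerSeries.map_expand, map_sigmaSer]

theorem qExpansion_E₆_level :
    qExpansion (p : ℝ) (⇑E₆ : ℍ → ℂ) = (1 - 504 * s5A p A).map A.subtype := by
  rw [qExpansion_nat_eq_expand p (coe_mem_holRing_one_levelOne E₆), qExpansion_E₆', Rz_map, s5A]
  simp only [map_sub, map_mul, map_one, map_ofNat, PowerSeries.map_expand, map_sigmaSer]

/-- **Core of the M5 expansions.** -/
theorem qExpansion_eq_Yser (c : A) (Y g : ℍ → ℂ) (hY : Y ∈ holRing (p : ℝ))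
    (hg : g ∈ holRing (p : ℝ))
    (hrel : ∀ τ, 3 * Y τ = E₆ τ * ((c : ℂ) * E₆ τ - g τ * E₄ τ))
    (d h : PowerSeries A)
    (hgq : qExpansion (p : ℝ) g = (PowerSeries.C c + 3 * d + 9 * h).map A.subtype) :
    qExpansion (p : ℝ) Y = (Yser (PowerSeries.C c) d h (s3A p A) (s5A p A)).map A.subtype := by
  have hpp : (0 : ℝ) < (p : ℝ) := natCast_pos' p
  have hE4 : (⇑E₄ : ℍ → ℂ) ∈ holRing (p : ℝ) :=
    holRing_one_le p (coe_mem_holRing_one_levelOne E₄)
  have hE6 : (⇑E₆ : ℍ → ℂ) ∈ holRing (p : ℝ) :=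
    holRing_one_le p (coe_mem_holRing_one_levelOne E₆)
  have hfun : (3 : ℂ) • Y = ⇑E₆ * ((c : ℂ) • ⇑E₆ - g * ⇑E₄) := by
    funext τ
    simp only [Pi.smul_apply, Pi.mul_apply, Pi.sub_apply, smul_eq_mul]
    exact hrel τ
  have h1 := congrArg (qExpansion (p : ℝ)) hfun
  rw [qExpansion_smul_of_mem hpp hY,
    qExpansion_mul_of_mem hpp hE6
      ((holRing _).sub_mem (smul_mem_holRing _ hE6) ((holRing _).mul_mem hg hE4)),
    qExpansion_sub_of_mem hpp (smul_mem_holRing _ hE6) ((holRing _).mul_mem hg hE4),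
    qExpansion_smul_of_mem hpp hE6, qExpansion_mul_of_mem hpp hg hE4,
    qExpansion_E₄_level p A, qExpansion_E₆_level p A, hgq] at h1
  have := charZero_powerSeries_complex
  rw [map_Yser]
  refine eq_Yser_of_three_mul (g := (PowerSeries.C c + 3 * d + 9 * h).map A.subtype)
    (e4 := (1 + 240 * s3A p A).map A.subtype) (e6 := (1 - 504 * s5A p A).map A.subtype)
    ?_ ?_ ?_ ?_
  · simp only [map_add, map_mul, map_ofNat]
  · simp only [map_add, map_mul, map_ofNat, map_one]
  · simp only [map_sub, map_mul, map_ofNat, map_one]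
  · have h3 : (PowerSeries.C (3 : ℂ) : PowerSeries ℂ) = 3 := map_ofNat _ 3
    rw [PowerSeries.smul_eq_C_mul, PowerSeries.smul_eq_C_mul, h3] at h1
    rw [h1, PowerSeries.map_C]
    rfl


/-- **Reduction in characteristic `3`.** -/
theorem map_Yser_red {κ : Type*} [Field κ] [CharP κ 3] (red : A →+* κ) (c : A)
    (d h : PowerSeries A) :
    (Yser (PowerSeries.C c) d h (s3A p A) (s5A p A)).map red =
      PowerSeries.expand p (NeZero.ne p) (red c • sigmaPS κ) - d.map red := by
  have h3 : (3 : PowerSeries κ) = 0 := by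
    have : ((3 : ℕ) : κ) = 0 := CharP.cast_eq_zero κ 3
    have h := congrArg (PowerSeries.C (R := κ)) this
    rw [map_natCast, map_zero] at h
    exact_mod_cast h
  rw [map_Yser, Yser_of_three_eq_zero h3, PowerSeries.map_C, s3A, PowerSeries.map_expand,
    map_sigmaSer, sigmaSer_three_eq, PowerSeries.expand_smul, PowerSeries.smul_eq_C_mul]

end Fermat.Agent.S16lib.M5
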